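import Mathlib
import Fermat.Agent.Lib.EC.Reduction.KernelGeneral
import Fermat.Agent.Lib.EC.FunctionField.LocalOrder

/-!
# P-ELL WP-EC9, part 1: the formal-group estimate for `m • D + s • D'`

`v` a valuation on a field `K`, `W` a Weierstrass curve over `K` with `v`-integral coefficients.
For a point `D ≠ 0` in the kernel of reduction (`Kernel.Near v D`, i.e. `1 < v (x D)`), an integer
`m` with `v m = 1` and a second point `D'` of the kernel of reduction which is much closer to the
origin (`v (z D') ≤ v (z D) ^ 2`, e.g. `D' = Frob D` or `D' = 0`), the point `m • D + s • D'` is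
again in the kernel of reduction, is nonzero, and its `x`-coordinate has the same valuation as the
`x`-coordinate of `D`.

Everything is deduced from helper34's `Kernel.add_estimate` / `Kernel.nsmul_estimate`.
-/

set_option autoImplicit false

open WeierstrassCurve WeierstrassCurve.Affine

namespace Fermat.Agent.Lib.EC.KernelCount

open Fermat.Agent.Lib.EC.Kernel Fermat.Agent.Lib.EC.LocalOrder

variable {K : Type*} [Field K] {Γ₀ : Type*} [LinearOrderedCommGroupWithZero Γ₀]
  (v : Valuation K Γ₀)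

theorem xCoord_neg {W : Affine K} (P : W.Point) : xCoord W (-P) = xCoord W P := by
  rcases P with _ | ⟨x, y, h⟩
  · rfl
  · rw [Point.neg_some]; rfl

/-- `v (z P) ^ 2 * v (x P) = 1` for a nonzero point of the kernel of reduction. -/
theorem val_zc_sq_mul {W : Affine K} (hW : IsIntegralAt v W) {P : W.Point} (hP : Near v P)
    (hP0 : P ≠ 0) : v (zc P) ^ 2 * v (xCoord W P) = 1 := by
  obtain ⟨g1, g2, g3, g4, g6⟩ := hW
  rcases P with _ | ⟨x, y, h⟩
  · exact absurd Point.zero_def.symm hP0
  · rw [zc_some, xCoord_some]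
    exact val_z_sq_mul v g1 g2 g3 g4 g6 hP ((equation_iff x y).mp h.left)

/-- A nonzero point of the kernel of reduction has `1 < v (x P)`. -/
theorem one_lt_val_xCoord {W : Affine K} {P : W.Point} (hP : Near v P) (hP0 : P ≠ 0) :
    1 < v (xCoord W P) := by
  rcases P with _ | ⟨x, y, h⟩
  · exact absurd Point.zero_def.symm hP0
  · exact hP

/-- Two nonzero points of the kernel of reduction whose chart coordinates have the same valuation
have `x`-coordinates of the same valuation. -/
theorem val_xCoord_eq_of_val_zc_eq {W : Affine K} (hW : IsIntegralAt v W) {P Q : W.Point}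
    (hP : Near v P) (hP0 : P ≠ 0) (hQ : Near v Q) (hQ0 : Q ≠ 0) (h : v (zc P) = v (zc Q)) :
    v (xCoord W P) = v (xCoord W Q) := by
  have h1 := val_zc_sq_mul v hW hP hP0
  have h2 := val_zc_sq_mul v hW hQ hQ0
  have hz : v (zc Q) ^ 2 ≠ 0 := pow_ne_zero 2 (val_zc_ne_zero v hW hQ hQ0)
  rw [h] at h1
  exact mul_left_cancel₀ hz (h1.trans h2.symm)

variable [DecidableEq K]

/-- The chart coordinate of `-P` is `-z(P)` up to `O(z(P)^2)`. -/
theorem neg_estimate {W : Affine K} (hW : IsIntegralAt v W) {P : W.Point} (hP : Near v P) :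
    v (zc (-P)) = v (zc P) ∧ v (zc (-P) + zc P) ≤ v (zc P) ^ 2 := by
  by_cases hP0 : P = 0
  · subst hP0
    simp
  have hN : Near v (-P) := near_neg v hP
  have hN0 : -P ≠ 0 := neg_ne_zero.mpr hP0
  have e1 := val_zc_sq_mul v hW hP hP0
  have e2 := val_zc_sq_mul v hW hN hN0
  rw [xCoord_neg] at e2
  have hx0 : v (xCoord W P) ≠ 0 := (lt_trans zero_lt_one (one_lt_val_xCoord v hP hP0)).ne'
  have hsq : v (zc (-P)) ^ 2 = v (zc P) ^ 2 := mul_right_cancel₀ hx0 (e2.trans e1.symm)
  have heq : v (zc (-P)) = v (zc P) := pow_left_injective two_ne_zero hsq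
  refine ⟨heq, ?_⟩
  have hc : v (zc P) < 1 := val_zc_lt_one v hW hP
  have := (add_estimate v hW hc hP hN le_rfl heq.le).2
  rw [add_neg_cancel, zc_zero] at this
  have e : (0 : K) - zc P - zc (-P) = -(zc (-P) + zc P) := by ring
  rwa [e, Valuation.map_neg] at this

/-- Integer multiples: `z(n • P) = n z(P) + O(z(P)^2)`. -/
theorem zsmul_estimate {W : Affine K} (hW : IsIntegralAt v W) {P : W.Point} (hP : Near v P)
    (n : ℤ) : Near v (n • P) ∧ v (zc (n • P) - (n : K) * zc P) ≤ v (zc P) ^ 2 := by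
  obtain ⟨k, rfl | rfl⟩ := n.eq_nat_or_neg
  · rw [natCast_zsmul, Int.cast_natCast]
    exact nsmul_estimate v hW hP k
  · have hN : Near v (-P) := near_neg v hP
    obtain ⟨h1, h2⟩ := nsmul_estimate v hW hN k
    obtain ⟨e1, e2⟩ := neg_estimate v hW hP
    rw [neg_smul, natCast_zsmul, ← smul_neg]
    refine ⟨h1, ?_⟩
    have e : zc (k • -P) - ((-(k : ℤ) : ℤ) : K) * zc P =
        (zc (k • -P) - (k : K) * zc (-P)) + (k : K) * (zc (-P) + zc P) := by
      push_cast; ring
    rw [e]
    refine v.map_add_le (by rw [← e1]; exact h2) ?_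
    exact val_mul_le_of_le_one v (val_natCast_le_one v k) e2

omit [DecidableEq K] in
theorem val_intCast_le_one (n : ℤ) : v (n : K) ≤ 1 := by
  obtain ⟨k, rfl | rfl⟩ := n.eq_nat_or_neg
  · rw [Int.cast_natCast]; exact val_natCast_le_one v k
  · rw [Int.cast_neg, Int.cast_natCast, Valuation.map_neg]; exact val_natCast_le_one v k

/-- **Formal-group estimate.**  `D ≠ 0` in the kernel of reduction, `v m = 1`, and `D'` in the
kernel of reduction with `v (z D') ≤ v (z D) ^ 2`: then `m • D + s • D'` is a nonzero point of the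
kernel of reduction and `v (z (m • D + s • D')) = v (z D)`. -/
theorem zsmul_add_zsmul_estimate {W : Affine K} (hW : IsIntegralAt v W) {D D' : W.Point}
    (hD : Near v D) (hD0 : D ≠ 0) (hD' : Near v D') (hz' : v (zc D') ≤ v (zc D) ^ 2)
    {m : ℤ} (hm : v (m : K) = 1) (s : ℤ) :
    Near v (m • D + s • D') ∧ m • D + s • D' ≠ 0 ∧ v (zc (m • D + s • D')) = v (zc D) := by
  set c := v (zc D) with hc
  have hc1 : c < 1 := val_zc_lt_one v hW hD
  have hc0 : c ≠ 0 := val_zc_ne_zero v hW hD hD0
  have hc2 : c ^ 2 < c := pow_lt_self hc1 hc0 (by norm_num)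
  obtain ⟨n1, n2⟩ := zsmul_estimate v hW hD m
  obtain ⟨n3, n4⟩ := zsmul_estimate v hW hD' s
  -- `z (m • D) = m z(D) + O(c^2)` has valuation `c`
  have hmz : v ((m : K) * zc D) = c := by rw [map_mul, hm, one_mul]
  have hzm : v (zc (m • D)) = c := by
    have e : zc (m • D) = (m : K) * zc D + (zc (m • D) - (m : K) * zc D) := by ring
    rw [e, v.map_add_eq_of_lt_left (by rw [hmz]; exact lt_of_le_of_lt n2 hc2), hmz]
  -- `z (s • D') = O(c^2)`
  have hc' : v (zc D') ^ 2 ≤ c ^ 2 := by
    have h1 : v (zc D') ≤ c := hz'.trans hc2.le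
    calc v (zc D') ^ 2 ≤ v (zc D') := pow_le_self (h1.trans hc1.le) (by norm_num)
      _ ≤ c ^ 2 := hz'
  have hzs : v (zc (s • D')) ≤ c ^ 2 := by
    have e : zc (s • D') = (zc (s • D') - (s : K) * zc D') + (s : K) * zc D' := by ring
    rw [e]
    refine v.map_add_le (n4.trans hc') ?_
    exact val_mul_le_of_le_one v (val_intCast_le_one v s) hz'
  obtain ⟨r1, r2⟩ := add_estimate v hW hc1 n1 n3 hzm.le (hzs.trans hc2.le)
  have hfin : v (zc (m • D + s • D')) = c := by
    have e : zc (m • D + s • D') =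
        zc (m • D) + ((zc (m • D + s • D') - zc (m • D) - zc (s • D')) + zc (s • D')) := by ring
    rw [e, v.map_add_eq_of_lt_left, hzm]
    rw [hzm]
    exact lt_of_le_of_lt (v.map_add_le r2 hzs) hc2
  refine ⟨r1, ?_, hfin⟩
  intro h0
  rw [h0, zc_zero, map_zero] at hfin
  exact hc0 hfin.symm

/-- **Formal-group estimate, `x`-coordinate form.** -/
theorem val_xCoord_zsmul_add_zsmul {W : Affine K} (hW : IsIntegralAt v W) {D D' : W.Point}
    (hD : Near v D) (hD0 : D ≠ 0) (hD' : Near v D') (hz' : v (zc D') ≤ v (zc D) ^ 2)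
    {m : ℤ} (hm : v (m : K) = 1) (s : ℤ) :
    m • D + s • D' ≠ 0 ∧ 1 < v (xCoord W (m • D + s • D')) ∧
      v (xCoord W (m • D + s • D')) = v (xCoord W D) := by
  obtain ⟨h1, h2, h3⟩ := zsmul_add_zsmul_estimate v hW hD hD0 hD' hz' hm s
  exact ⟨h2, one_lt_val_xCoord v h1 h2, val_xCoord_eq_of_val_zc_eq v hW h1 h2 hD hD0 h3⟩

end Fermat.Agent.Lib.EC.KernelCount
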