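import Mathlib
import Fermat.Agent.Lib.EC.FunctionField.Places
import Fermat.Agent.Lib.EC.Reduction.ReductionMap

/-!
# P-ELL WP-EC9, part 2: specialisation at a place of a function field

`k` an algebraically closed field, `K/k` a function field in one variable (`Places.IsOneVar`),
`A` a nontrivial valuation subring of `K` containing `k`; `W` a Weierstrass curve over a ring `R`
mapping to `k`, with `W⁄k` elliptic.  Then `spec : (W⁄K).Point →+ (W⁄k).Point` is helper34's
reduction homomorphism for `π = Places.resk : A →+* k`.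
-/

set_option autoImplicit false

open WeierstrassCurve WeierstrassCurve.Affine

namespace Fermat.Agent.Lib.EC.KernelCount

open Fermat.Agent.Lib.EC

variable {R : Type*} [CommRing R] (W : Affine R)
  {k K : Type*} [Field k] [Field K] [Algebra R k] [Algebra R K] [Algebra k K]
  [IsScalarTower R k K] [IsAlgClosed k]
  (H : Places.IsOneVar k K) (A : ValuationSubring K) (hk : ∀ c : k, algebraMap k K c ∈ A)
  (hA : A ≠ ⊤)

instance isLocalHom_resk : IsLocalHom (Places.resk H A hk hA) where
  map_nonunit a ha := by
    have h0 : Places.resk H A hk hA a ≠ 0 := ha.ne_zero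
    rw [Ne, Places.resk_eq_zero_iff, ValuationSubring.coe_mem_nonunits_iff] at h0
    by_contra hu
    exact h0 hu

omit [IsAlgClosed k] in
theorem subtype_comp_constHom :
    A.subtype.comp ((Places.constHom A hk).comp (algebraMap R k)) = algebraMap R K := by
  ext r
  simp [Places.constHom, IsScalarTower.algebraMap_apply R k K]

omit [Algebra R K] [IsScalarTower R k K] in
theorem resk_comp_constHom :
    (Places.resk H A hk hA).comp ((Places.constHom A hk).comp (algebraMap R k)) =
      algebraMap R k := by
  ext r
  simp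

/-- The constant curve `W⁄K` reduces to `W⁄k` at every place. -/
theorem isReduction_const : IsReduction (Places.resk H A hk hA) (W⁄K) (W⁄k) := by
  have := isReduction_comp (Places.resk H A hk hA) ((Places.constHom A hk).comp (algebraMap R k)) W
  rwa [subtype_comp_constHom, resk_comp_constHom] at this

include H hk hA in
/-- The coefficients of the constant curve are integral at every place. -/
theorem isIntegralOver_const : IsIntegralOver A (W⁄K).toAffine :=
  (isReduction_const W H A hk hA).isIntegralOver

variable [DecidableEq k] [DecidableEq K] [(W⁄k).IsElliptic]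

/-- **Specialisation** at the place `A`: the reduction homomorphism with values in `(W⁄k).Point`. -/
noncomputable def spec : (W⁄K).toAffine.Point →+ (W⁄k).toAffine.Point :=
  (isReduction_const W H A hk hA).redHom (W⁄k).isUnit_Δ.ne_zero

theorem spec_apply (P : (W⁄K).toAffine.Point) :
    spec W H A hk hA P = red (Places.resk H A hk hA) (W⁄K).toAffine (W⁄k).toAffine P := rfl

theorem spec_eq_zero_iff (P : (W⁄K).toAffine.Point) : spec W H A hk hA P = 0 ↔ KerRed A P :=
  (isReduction_const W H A hk hA).redHom_eq_zero_iff _ P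

omit [DecidableEq k] [DecidableEq K] [(W⁄k).IsElliptic] in
include H hk hA in
/-- On the constant curve, an integral `x`-coordinate forces an integral `y`-coordinate. -/
theorem y_mem_of_x_mem {x y : K} (h : (W⁄K).toAffine.Nonsingular x y) (hx : x ∈ A) : y ∈ A := by
  by_contra hy
  exact ((kerRed_some_iff_y (isIntegralOver_const W H A hk hA) h).mpr hy) hx

/-- The specialisation of an integral affine point is the coordinatewise reduction. -/
theorem spec_some_of_mem {x y : K} (h : (W⁄K).toAffine.Nonsingular x y) (hx : x ∈ A) :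
    ∃ (hy : y ∈ A) (hns : (W⁄k).toAffine.Nonsingular (Places.resk H A hk hA ⟨x, hx⟩)
      (Places.resk H A hk hA ⟨y, hy⟩)), spec W H A hk hA (Point.some x y h) = Point.some _ _ hns := by
  have hy := y_mem_of_x_mem W H A hk hA h hx
  have hE := (isReduction_const W H A hk hA).isE0_of_Δ_ne_zero (W⁄k).isUnit_Δ.ne_zero
    (Point.some x y h)
  rw [isE0_some] at hE
  have hns := hE hx
  rw [res_of_mem _ hx, res_of_mem _ hy] at hns
  refine ⟨hy, hns, ?_⟩
  rw [spec_apply, red_some_of_mem _ h hx hy (hE hx)]
  exact some_congr _ (res_of_mem _ hx) (res_of_mem _ hy) _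

/-- The specialisation of an affine point congruent to `(x₀, y₀)` modulo the maximal ideal. -/
theorem spec_some_of_sub_mem_nonunits {x y : K} (h : (W⁄K).toAffine.Nonsingular x y) {x₀ y₀ : k}
    (hx₀ : x - algebraMap k K x₀ ∈ A.nonunits) (hy₀ : y - algebraMap k K y₀ ∈ A.nonunits) :
    ∃ hns : (W⁄k).toAffine.Nonsingular x₀ y₀,
      spec W H A hk hA (Point.some x y h) = Point.some x₀ y₀ hns := by
  have hx : x ∈ A := by
    have := A.add_mem _ _ (A.nonunits_subset hx₀) (hk x₀)
    simpa using this
  obtain ⟨hy, hns, e⟩ := spec_some_of_mem W H A hk hA h hx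
  have e1 : Places.resk H A hk hA ⟨x, hx⟩ = x₀ :=
    Places.resk_eq_of_sub_mem_nonunits H A hk hA ⟨x, hx⟩ x₀ hx₀
  have e2 : Places.resk H A hk hA ⟨y, hy⟩ = y₀ :=
    Places.resk_eq_of_sub_mem_nonunits H A hk hA ⟨y, hy⟩ y₀ hy₀
  have hns' : (W⁄k).toAffine.Nonsingular x₀ y₀ := by rw [← e1, ← e2]; exact hns
  exact ⟨hns', e.trans (some_congr _ e1 e2 _)⟩

/-- Constant points specialise to themselves. -/
theorem spec_map_const (P₀ : (W⁄k).toAffine.Point) :
    spec W H A hk hA (Point.map (W' := W) (IsScalarTower.toAlgHom R k K) P₀) = P₀ := by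
  rcases P₀ with _ | ⟨x₀, y₀, h₀⟩
  · rfl
  · rw [Point.map_some]
    obtain ⟨hns, e⟩ := spec_some_of_sub_mem_nonunits W H A hk hA
      ((W.baseChange_nonsingular (IsScalarTower.toAlgHom R k K).injective ..).mpr h₀)
      (x₀ := x₀) (y₀ := y₀) (by rw [IsScalarTower.coe_toAlgHom', sub_self, ValuationSubring.mem_nonunits_iff, map_zero]; exact zero_lt_one)
      (by rw [IsScalarTower.coe_toAlgHom', sub_self, ValuationSubring.mem_nonunits_iff, map_zero]; exact zero_lt_one)
    exact e

/-- Specialisation commutes with `q`-power maps (Frobenius). -/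
theorem spec_map_pow (fK : K →ₐ[R] K) (fk : k →ₐ[R] k) {q : ℕ} (hq : q ≠ 0)
    (hfK : ∀ z, fK z = z ^ q) (hfk : ∀ c, fk c = c ^ q) (P : (W⁄K).toAffine.Point) :
    spec W H A hk hA (Point.map (W' := W) fK P) = Point.map (W' := W) fk (spec W H A hk hA P) := by
  rcases P with _ | ⟨x, y, h⟩
  · rfl
  · rw [Point.map_some]
    by_cases hx : x ∈ A
    · obtain ⟨hy, hns, e⟩ := spec_some_of_mem W H A hk hA h hx
      have hxq : fK x ∈ A := by rw [hfK]; exact pow_mem hx q
      obtain ⟨hyq, hnsq, eq⟩ := spec_some_of_mem W H A hk hA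
        ((W.baseChange_nonsingular fK.injective ..).mpr h) hxq
      rw [e, eq, Point.map_some]
      refine some_congr _ ?_ ?_ _
      · rw [hfk, ← map_pow]
        congr 1
        exact Subtype.ext (hfK x)
      · rw [hfk, ← map_pow]
        congr 1
        exact Subtype.ext (hfK y)
    · have h1 : spec W H A hk hA (Point.some x y h) = 0 :=
        (spec_eq_zero_iff W H A hk hA _).mpr ((kerRed_some A h).mpr hx)
      have hxq : fK x ∉ A := by
        rw [hfK]
        intro hmem
        apply hx
        rw [← A.valuation_le_one_iff] at hmem ⊢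
        rw [map_pow] at hmem
        exact (pow_le_one_iff hq).mp hmem
      have h2 : spec W H A hk hA (Point.some (fK x) (fK y)
          ((W.baseChange_nonsingular fK.injective ..).mpr h)) = 0 :=
        (spec_eq_zero_iff W H A hk hA _).mpr ((kerRed_some A _).mpr hxq)
      rw [h1, h2, map_zero]

end Fermat.Agent.Lib.EC.KernelCount
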