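import Mathlib
import Fermat.Agent.Lib.EC.KernelCount.Estimate
import Fermat.Agent.Lib.EC.KernelCount.Spec
import Fermat.Agent.Lib.EC.FunctionField.LocalOrder

/-!
# P-ELL WP-EC9, part 3: the generic point at a place

`K/k` a function field in one variable over an algebraically closed field, `W` a Weierstrass curve
over `R → k` with `W⁄k` elliptic, `(x, y)` a `K`-point of `W`, and `α = m + ψ` where `(m : k) ≠ 0`
and `ψ` is an "inseparable" endomorphism (`IsInsep`; e.g. `ψ = 0` or `ψ = s • Frobenius`).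
For a place `A` of `K/k`:

* `infinite_place`: if `x ∉ A` then `Q = α (x, y)` is nonzero and `v (x Q) = v x`;
* `finite_place`: if `(x, y) ≡ (x₀, y₀) =: P₀` modulo the maximal ideal of `A`, then `Q` has integral
  `x`-coordinate if `α P₀ ≠ 0`, and otherwise `v (x Q) = v (x - x₀) ^ (-2)` (if `2 P₀ ≠ 0`)
  resp. `v (x - x₀) ^ (-1)` (if `2 P₀ = 0`).
-/

set_option autoImplicit false

open WeierstrassCurve WeierstrassCurve.Affine

namespace Fermat.Agent.Lib.EC.KernelCount

open Fermat.Agent.Lib.EC Fermat.Agent.Lib.EC.LocalOrder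

variable {R : Type*} [CommRing R] (W : Affine R)
  {k K : Type*} [Field k] [Field K] [Algebra R k] [Algebra R K] [Algebra k K]
  [IsScalarTower R k K]

/-- The coefficients of a constant curve are integral at every valuation subring containing the
constants. -/
theorem isIntegralOver_baseChange (A : ValuationSubring K) (hk : ∀ c : k, algebraMap k K c ∈ A) :
    IsIntegralOver A (W⁄K).toAffine := by
  have h : ∀ r : R, algebraMap R K r ∈ A := fun r => by
    rw [IsScalarTower.algebraMap_apply R k K]; exact hk _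
  exact ⟨h _, h _, h _, h _, h _⟩

/-- Nonzero integers of the constant field are units at every place. -/
theorem valuation_intCast_eq_one (A : ValuationSubring K) (hk : ∀ c : k, algebraMap k K c ∈ A)
    {m : ℤ} (hm : (m : k) ≠ 0) : A.valuation (m : K) = 1 := by
  have := valuation_algebraMap_eq_one A hk hm
  rwa [map_intCast] at this

variable [DecidableEq k] [DecidableEq K]

/-- Constant points. -/
noncomputable abbrev const : (W⁄k).Point →+ (W⁄K).Point :=
  Point.map (W' := W) (IsScalarTower.toAlgHom R k K)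

/-- helper4's `valuation_x_sub_const`, transported to the curve `W⁄K`. -/
theorem valuation_x_sub_const' (A : ValuationSubring K) (hk : ∀ c : k, algebraMap k K c ∈ A)
    {x₀ y₀ : k} (h₀ : (W⁄k).Nonsingular x₀ y₀) {x y : K} (h : (W⁄K).Nonsingular x y)
    (hξ : A.valuation (x - algebraMap k K x₀) < 1) (hη : A.valuation (y - algebraMap k K y₀) < 1)
    (hne : x ≠ algebraMap k K x₀) :
    Point.some x y h - const W (Point.some x₀ y₀ h₀) ≠ 0 ∧
    1 < A.valuation (xCoord _ (Point.some x y h - const W (Point.some x₀ y₀ h₀))) ∧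
    (y₀ ≠ (W⁄k).negY x₀ y₀ →
      A.valuation (xCoord _ (Point.some x y h - const W (Point.some x₀ y₀ h₀))) =
        (A.valuation (x - algebraMap k K x₀))⁻¹ ^ 2) ∧
    (y₀ = (W⁄k).negY x₀ y₀ →
      A.valuation (xCoord _ (Point.some x y h - const W (Point.some x₀ y₀ h₀))) =
        (A.valuation (x - algebraMap k K x₀))⁻¹) := by
  have key : ∀ (WK : Affine K) (hWK : (W⁄k).map (algebraMap k K) = WK)
      (h : WK.Nonsingular x y)
      (h₀' : WK.Nonsingular (algebraMap k K x₀) (algebraMap k K y₀)),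
      Point.some x y h - Point.some _ _ h₀' ≠ 0 ∧
      1 < A.valuation (xCoord _ (Point.some x y h - Point.some _ _ h₀')) ∧
      (y₀ ≠ (W⁄k).negY x₀ y₀ → A.valuation (xCoord _ (Point.some x y h - Point.some _ _ h₀')) =
        (A.valuation (x - algebraMap k K x₀))⁻¹ ^ 2) ∧
      (y₀ = (W⁄k).negY x₀ y₀ → A.valuation (xCoord _ (Point.some x y h - Point.some _ _ h₀')) =
        (A.valuation (x - algebraMap k K x₀))⁻¹) := by
    intro WK hWK h h₀'
    subst hWK
    obtain ⟨h1, h2, h3, h4⟩ := valuation_x_sub_const A hk (W⁄k) h₀ h h₀' hξ hη hne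
    exact ⟨h1, h2, h3, fun hy => (h4 hy).1⟩
  exact key (W⁄K) (W.map_baseChange (IsScalarTower.toAlgHom R k K)) h _

variable [IsAlgClosed k] [(W⁄k).IsElliptic]

/-- A pair of endomorphisms `ψK` of `(W⁄K).Point` and `ψk` of `(W⁄k).Point` which is compatible
with specialisation and constant points, and such that `ψK` is "inseparable": on the kernel of
reduction at any place it squares (at least) the distance to the origin.  Examples: `0`, and
integer multiples of a Frobenius. -/
structure IsInsep (H : Places.IsOneVar k K) (ψK : (W⁄K).Point →+ (W⁄K).Point)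
    (ψk : (W⁄k).Point →+ (W⁄k).Point) : Prop where
  spec_comm : ∀ (A : ValuationSubring K) (hk : ∀ c : k, algebraMap k K c ∈ A) (hA : A ≠ ⊤)
    (P : (W⁄K).Point), spec W H A hk hA (ψK P) = ψk (spec W H A hk hA P)
  const_comm : ∀ P₀ : (W⁄k).Point, ψK (const W P₀) = const W (ψk P₀)
  near : ∀ (A : ValuationSubring K) (_hk : ∀ c : k, algebraMap k K c ∈ A) (D : (W⁄K).Point),
    KerRed A D → KerRed A (ψK D) ∧
      A.valuation (Kernel.zc (ψK D)) ≤ A.valuation (Kernel.zc D) ^ 2

section Place

variable {W} {H : Places.IsOneVar k K} {ψK : (W⁄K).Point →+ (W⁄K).Point}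
  {ψk : (W⁄k).Point →+ (W⁄k).Point} (hψ : IsInsep W H ψK ψk)
  (A : ValuationSubring K) (hk : ∀ c : k, algebraMap k K c ∈ A)
  {m : ℤ} (hm : (m : k) ≠ 0)

include hψ hk hm in
/-- The estimate for `α = m + ψ` on the kernel of reduction. -/
theorem alpha_estimate {D : (W⁄K).Point} (hD : KerRed A D) (hD0 : D ≠ 0) :
    m • D + ψK D ≠ 0 ∧ 1 < A.valuation (xCoord _ (m • D + ψK D)) ∧
      A.valuation (xCoord _ (m • D + ψK D)) = A.valuation (xCoord _ D) := by
  have hW := (isIntegralOver_baseChange W A hk).isIntegralAt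
  obtain ⟨n1, n2⟩ := hψ.near A hk D hD
  rw [kerRed_iff_near] at hD n1
  have := val_xCoord_zsmul_add_zsmul A.valuation hW hD hD0 n1 n2
    (valuation_intCast_eq_one A hk hm) 1
  rwa [one_smul] at this

include hψ hk hm in
/-- **The place at infinity.**  If `x ∉ A` then `Q = m • (x, y) + ψ (x, y)` is nonzero and
`v (x Q) = v x`. -/
theorem infinite_place {x y : K} (hxy : (W⁄K).Nonsingular x y) (hx : x ∉ A) :
    m • Point.some x y hxy + ψK (Point.some x y hxy) ≠ 0 ∧
      A.valuation (xCoord _ (m • Point.some x y hxy + ψK (Point.some x y hxy))) =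
        A.valuation x := by
  have hD : KerRed A (Point.some x y hxy) := (kerRed_some A hxy).mpr hx
  obtain ⟨h1, _, h3⟩ := alpha_estimate hψ A hk hm hD (Point.some_ne_zero hxy)
  exact ⟨h1, h3⟩

include hψ hk hm in
/-- **Finite places.**  If `(x, y)` is congruent to the constant point `P₀ = (x₀, y₀)` modulo the
maximal ideal of `A` and `Q = m • (x, y) + ψ (x, y)`: if `α P₀ ≠ 0` then `Q` is not in the kernel of
reduction, and if `α P₀ = 0` then `v (x Q)` is `v (x - x₀) ^ (-2)` or `v (x - x₀) ^ (-1)` according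
to whether `2 P₀ ≠ 0` or `2 P₀ = 0`. -/
theorem finite_place {x y : K} (hxy : (W⁄K).Nonsingular x y) {x₀ y₀ : k}
    (hx₀ : x - algebraMap k K x₀ ∈ A.nonunits) (hy₀ : y - algebraMap k K y₀ ∈ A.nonunits)
    (hne : x ≠ algebraMap k K x₀) :
    ∃ h₀ : (W⁄k).Nonsingular x₀ y₀,
      (m • Point.some x₀ y₀ h₀ + ψk (Point.some x₀ y₀ h₀) ≠ 0 →
        ¬ KerRed A (m • Point.some x y hxy + ψK (Point.some x y hxy))) ∧
      (m • Point.some x₀ y₀ h₀ + ψk (Point.some x₀ y₀ h₀) = 0 →
        m • Point.some x y hxy + ψK (Point.some x y hxy) ≠ 0 ∧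
        (y₀ ≠ (W⁄k).negY x₀ y₀ →
          A.valuation (xCoord _ (m • Point.some x y hxy + ψK (Point.some x y hxy))) =
            (A.valuation (x - algebraMap k K x₀))⁻¹ ^ 2) ∧
        (y₀ = (W⁄k).negY x₀ y₀ →
          A.valuation (xCoord _ (m • Point.some x y hxy + ψK (Point.some x y hxy))) =
            (A.valuation (x - algebraMap k K x₀))⁻¹)) := by
  have hA : A ≠ ⊤ := Places.ne_top_of_mem_nonunits hx₀ (sub_ne_zero.mpr hne)
  obtain ⟨h₀, hsp⟩ := spec_some_of_sub_mem_nonunits W H A hk hA hxy hx₀ hy₀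
  have hspQ : spec W H A hk hA (m • Point.some x y hxy + ψK (Point.some x y hxy)) =
      m • Point.some x₀ y₀ h₀ + ψk (Point.some x₀ y₀ h₀) := by
    rw [map_add, map_zsmul, hψ.spec_comm, hsp]
  refine ⟨h₀, fun hne0 hker => ?_, fun h0 => ?_⟩
  · rw [← spec_eq_zero_iff W H A hk hA, hspQ] at hker
    exact hne0 hker
  · have hξ : A.valuation (x - algebraMap k K x₀) < 1 := (A.mem_nonunits_iff).mp hx₀
    have hη : A.valuation (y - algebraMap k K y₀) < 1 := (A.mem_nonunits_iff).mp hy₀
    obtain ⟨d1, d2, d3, d4⟩ := valuation_x_sub_const' W A hk h₀ hxy hξ hη hne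
    set D := Point.some x y hxy - const W (Point.some x₀ y₀ h₀) with hD
    have hDker : KerRed A D := by
      rw [← spec_eq_zero_iff W H A hk hA, hD, map_sub, hsp, spec_map_const, sub_self]
    have hc : m • const W (Point.some x₀ y₀ h₀) + ψK (const W (Point.some x₀ y₀ h₀)) = 0 := by
      rw [hψ.const_comm, ← map_zsmul, ← map_add, h0, map_zero]
    have hQ : m • D + ψK D = m • Point.some x y hxy + ψK (Point.some x y hxy) := by
      rw [hD, smul_sub, map_sub]
      have : m • Point.some x y hxy - m • const W (Point.some x₀ y₀ h₀) +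
          (ψK (Point.some x y hxy) - ψK (const W (Point.some x₀ y₀ h₀))) =
          (m • Point.some x y hxy + ψK (Point.some x y hxy)) -
            (m • const W (Point.some x₀ y₀ h₀) + ψK (const W (Point.some x₀ y₀ h₀))) := by abel
      rw [this, hc, sub_zero]
    obtain ⟨e1, _, e3⟩ := alpha_estimate hψ A hk hm hDker d1
    rw [hQ] at e1 e3
    exact ⟨e1, fun hy => by rw [e3, d3 hy], fun hy => by rw [e3, d4 hy]⟩

end Place

end Fermat.Agent.Lib.EC.KernelCount
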