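import Mathlib
import Fermat.Agent.Lib.EC.KernelCount.Local

/-!
# P-ELL WP-EC9, part 4: the zero map and integer multiples of Frobenius are "inseparable"
-/

set_option autoImplicit false

open WeierstrassCurve WeierstrassCurve.Affine

namespace Fermat.Agent.Lib.EC.KernelCount

open Fermat.Agent.Lib.EC Fermat.Agent.Lib.EC.LocalOrder Fermat.Agent.Lib.EC.Kernel

variable {R : Type*} [CommRing R] (W : Affine R)
  {k K : Type*} [Field k] [Field K] [Algebra R k] [Algebra R K] [Algebra k K]
  [IsScalarTower R k K] [DecidableEq k] [DecidableEq K] [IsAlgClosed k] [(W⁄k).IsElliptic]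

theorem isInsep_zero (H : Places.IsOneVar k K) : IsInsep W H 0 0 where
  spec_comm _ _ _ _ := by simp
  const_comm _ := by simp
  near A _ D _ := ⟨kerRed_zero A, by simp⟩

/-- The chart coordinate of the image of a point under a `q`-power map. -/
theorem val_zc_map_pow {Γ₀ : Type*} [LinearOrderedCommGroupWithZero Γ₀] (v : Valuation K Γ₀)
    (fK : K →ₐ[R] K) {q : ℕ} (hq : q ≠ 0) (hfK : ∀ z, fK z = z ^ q) (D : (W⁄K).Point) :
    v (zc (Point.map (W' := W) fK D)) = v (zc D) ^ q := by
  rcases D with _ | ⟨x, y, h⟩
  · change v (zc (0 : (W⁄K).Point)) = v (zc (0 : (W⁄K).Point)) ^ q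
    rw [zc_zero, map_zero, zero_pow hq]
  · rw [Point.map_some, zc_some, zc_some, hfK, hfK, map_div₀, map_div₀, Valuation.map_neg,
      Valuation.map_neg, map_pow, map_pow, div_pow]

theorem isInsep_zsmul_frob (H : Places.IsOneVar k K) (fK : K →ₐ[R] K) (fk : k →ₐ[R] k) {q : ℕ}
    (hq : 2 ≤ q) (hfK : ∀ z, fK z = z ^ q) (hfk : ∀ c, fk c = c ^ q) (s : ℤ) :
    IsInsep W H (s • Point.map (W' := W) fK) (s • Point.map (W' := W) fk) where
  spec_comm A hk hA P := by
    rw [AddMonoidHom.smul_apply, AddMonoidHom.smul_apply, map_zsmul,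
      spec_map_pow W H A hk hA fK fk (by omega) hfK hfk]
  const_comm P₀ := by
    have e : fK.comp (IsScalarTower.toAlgHom R k K) = (IsScalarTower.toAlgHom R k K).comp fk := by
      ext c
      change fK (algebraMap k K c) = algebraMap k K (fk c)
      rw [hfK, hfk, map_pow]
    rw [AddMonoidHom.smul_apply, AddMonoidHom.smul_apply, map_zsmul, Point.map_map, Point.map_map,
      e]
  near A hk D hD := by
    have hW := (isIntegralOver_baseChange W A hk).isIntegralAt
    rw [kerRed_iff_near] at hD
    have hc1 : A.valuation (zc D) < 1 := val_zc_lt_one _ hW hD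
    -- the Frobenius image is near the origin
    have hφ : Near A.valuation (Point.map (W' := W) fK D) := by
      rcases D with _ | ⟨x, y, h⟩
      · exact near_zero _
      · rw [Point.map_some, near_some, hfK, map_pow]
        exact one_lt_pow₀ hD (by omega)
    have hzφ : A.valuation (zc (Point.map (W' := W) fK D)) ≤ A.valuation (zc D) ^ 2 := by
      rw [val_zc_map_pow W A.valuation fK (by omega) hfK]
      exact pow_le_pow_of_le_one hc1.le hq
    obtain ⟨n1, n2⟩ := zsmul_estimate A.valuation hW hφ s
    rw [AddMonoidHom.smul_apply, kerRed_iff_near]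
    refine ⟨n1, ?_⟩
    have hc2 : A.valuation (zc (Point.map (W' := W) fK D)) ^ 2 ≤
        A.valuation (zc (Point.map (W' := W) fK D)) :=
      pow_le_self ((hzφ.trans (pow_le_self hc1.le (by norm_num))).trans hc1.le) (by norm_num)
    have e : zc (s • Point.map (W' := W) fK D) =
        (zc (s • Point.map (W' := W) fK D) - (s : K) * zc (Point.map (W' := W) fK D)) +
          (s : K) * zc (Point.map (W' := W) fK D) := by ring
    rw [e]
    refine (A.valuation.map_add_le (n2.trans hc2) ?_).trans hzφ
    exact val_mul_le_of_le_one _ (val_intCast_le_one _ s) le_rfl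

end Fermat.Agent.Lib.EC.KernelCount
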