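import Mathlib
import Fermat.Agent.Lib.EC.KernelCount.Local

/-!
# P-ELL WP-EC9, part 5: pole orders of `x (α (x, y))` as a rational function of `x`
-/

set_option autoImplicit false

open WeierstrassCurve WeierstrassCurve.Affine Polynomial

namespace Fermat.Agent.Lib.EC.KernelCount

open Fermat.Agent.Lib.EC Fermat.Agent.Lib.EC.LocalOrder

section Poly

variable {k : Type*} [Field k]

/-- Numerator and denominator of a rational function have no common root. -/
theorem rootMultiplicity_num_or_denom (f : RatFunc k) (x₀ : k) :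
    f.num.rootMultiplicity x₀ = 0 ∨ f.denom.rootMultiplicity x₀ = 0 := by
  by_contra h
  rw [not_or] at h
  have h1 : (X - C x₀) ∣ f.num := by
    rw [dvd_iff_isRoot]
    by_contra hr
    exact h.1 (rootMultiplicity_eq_zero hr)
  have h2 : (X - C x₀) ∣ f.denom := by
    rw [dvd_iff_isRoot]
    by_contra hr
    exact h.2 (rootMultiplicity_eq_zero hr)
  exact not_isUnit_X_sub_C x₀ ((RatFunc.isCoprime_num_denom f).isUnit_of_dvd' h1 h2)

/-- Over an algebraically closed field the degree is the sum of the root multiplicities. -/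
theorem natDegree_eq_sum_rootMultiplicity [IsAlgClosed k] [DecidableEq k] (p : k[X]) :
    p.natDegree = ∑ x₀ ∈ p.roots.toFinset, p.rootMultiplicity x₀ := by
  rw [← IsAlgClosed.card_roots_eq_natDegree, ← Multiset.toFinset_sum_count_eq]
  exact Finset.sum_congr rfl fun x₀ _ => count_roots p

/-- A positive root multiplicity of a nonzero polynomial means a root. -/
theorem mem_roots_toFinset_iff [DecidableEq k] {p : k[X]} (hp : p ≠ 0) (x₀ : k) :
    x₀ ∈ p.roots.toFinset ↔ p.rootMultiplicity x₀ ≠ 0 := by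
  rw [Multiset.mem_toFinset, mem_roots hp, Ne, rootMultiplicity_eq_zero_iff]
  constructor
  · intro h h'
    exact hp (h' h)
  · intro h
    by_contra hr
    exact h fun hr' => absurd hr' hr

end Poly

section PoleOrder

variable {R : Type*} [CommRing R] {W : Affine R}
  {k K : Type*} [Field k] [Field K] [Algebra R k] [Algebra R K] [Algebra k K]
  [IsScalarTower R k K] [DecidableEq k] [DecidableEq K] [IsAlgClosed k] [(W⁄k).IsElliptic]
  {H : Places.IsOneVar k K} {ψK : (W⁄K).Point →+ (W⁄K).Point}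
  {ψk : (W⁄k).Point →+ (W⁄k).Point} (hψ : IsInsep W H ψK ψk)
  {m : ℤ} (hm : (m : k) ≠ 0) (e : RatFunc k →ₐ[k] K) {y : K}
  (hxy : (W⁄K).Nonsingular (e RatFunc.X) y)

omit [DecidableEq k] [DecidableEq K] [IsAlgClosed k] in
/-- The generic `x`-coordinate is not a constant. -/
theorem x_ne_const (x₀ : k) : e RatFunc.X ≠ algebraMap k K x₀ := by
  intro h
  have h1 : e RatFunc.X = e (RatFunc.C x₀) := by
    rw [h, ← RatFunc.algebraMap_eq_C, AlgHom.commutes]
  have h2 : (RatFunc.X : RatFunc k) = RatFunc.C x₀ := (e : RatFunc k →+* K).injective h1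
  have h3 := congrArg RatFunc.intDegree h2
  simp at h3

omit [DecidableEq k] [DecidableEq K] [IsAlgClosed k] in
theorem x_notMem_range : e RatFunc.X ∉ (algebraMap k K).range := by
  rintro ⟨x₀, hx₀⟩
  exact x_ne_const e x₀ hx₀.symm

omit [DecidableEq k] [DecidableEq K] [IsAlgClosed k] [(W⁄k).IsElliptic] in
/-- A nonzero point is outside the kernel of reduction iff its `x`-coordinate is integral. -/
theorem not_kerRed_iff (A : ValuationSubring K) {Q : (W⁄K).Point} (hQ : Q ≠ 0) :
    ¬ KerRed A Q ↔ xCoord _ Q ∈ A := by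
  rcases Q with _ | ⟨xQ, yQ, hQ'⟩
  · exact absurd Point.zero_def.symm hQ
  · rw [kerRed_some, not_not]; rfl

include hψ hm in
/-- **Behaviour at infinity**: `Q = α (x, y)` is nonzero, and if `x (Q) = f(x)` for a rational
function `f` then `f ≠ 0` and `deg f = 1`. -/
theorem generic_ne_zero_and_intDegree :
    m • Point.some (e RatFunc.X) y hxy + ψK (Point.some (e RatFunc.X) y hxy) ≠ 0 ∧
      ∀ f : RatFunc k,
        e f = xCoord _ (m • Point.some (e RatFunc.X) y hxy + ψK (Point.some (e RatFunc.X) y hxy)) →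
        f ≠ 0 ∧ f.intDegree = 1 := by
  obtain ⟨A, hk, hxA⟩ := Places.exists_valuationSubring_notMem (x_notMem_range e)
  obtain ⟨h1, h2⟩ := infinite_place hψ A hk hm hxy hxA
  refine ⟨h1, fun f hf => ?_⟩
  have hv : 1 < A.valuation (e RatFunc.X) := by
    rw [← not_le, A.valuation_le_one_iff]; exact hxA
  have hf0 : f ≠ 0 := by
    rintro rfl
    rw [map_zero] at hf
    rw [← hf, map_zero] at h2
    exact absurd (h2 ▸ hv) (not_lt.mpr zero_le_one)
  refine ⟨hf0, ?_⟩
  have h3 := Places.valuation_ratFunc_eq_zpow_intDegree A hk e hxA hf0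
  rw [hf, h2] at h3
  have h4 : A.valuation (e RatFunc.X) ^ (1 : ℤ) = A.valuation (e RatFunc.X) ^ f.intDegree := by
    rw [zpow_one]; exact h3
  exact ((zpow_right_inj₀ (lt_trans zero_lt_one hv) hv.ne').mp h4).symm

include hψ hm in
/-- **Pole orders at finite places**: for a constant point `P₀ = (x₀, y₀)` and a place `A` centred
at `P₀`: if `α P₀ ≠ 0` the denominator of `f = x (α (x, y))` does not vanish at `x₀`; if `α P₀ = 0`
it vanishes to order `2` (if `2 P₀ ≠ 0`) resp. `1` (if `2 P₀ = 0`). -/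
theorem rootMultiplicity_denom {f : RatFunc k}
    (hf : e f =
      xCoord _ (m • Point.some (e RatFunc.X) y hxy + ψK (Point.some (e RatFunc.X) y hxy)))
    (A : ValuationSubring K) (hk : ∀ c : k, algebraMap k K c ∈ A) {x₀ y₀ : k}
    (h₀ : (W⁄k).Nonsingular x₀ y₀)
    (hx₀ : e RatFunc.X - algebraMap k K x₀ ∈ A.nonunits)
    (hy₀ : y - algebraMap k K y₀ ∈ A.nonunits) :
    (m • Point.some x₀ y₀ h₀ + ψk (Point.some x₀ y₀ h₀) ≠ 0 →
      f.denom.rootMultiplicity x₀ = 0) ∧
    (m • Point.some x₀ y₀ h₀ + ψk (Point.some x₀ y₀ h₀) = 0 →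
      f.denom.rootMultiplicity x₀ = if y₀ = (W⁄k).negY x₀ y₀ then 1 else 2) := by
  obtain ⟨hQ0, hdeg⟩ := generic_ne_zero_and_intDegree hψ hm e hxy
  obtain ⟨hf0, -⟩ := hdeg f hf
  have hne := x_ne_const e x₀ (K := K)
  obtain ⟨h₀', p1, p2⟩ := finite_place hψ A hk hm hxy hx₀ hy₀ hne
  have hxA : e RatFunc.X ∈ A := by
    have := A.add_mem _ _ (A.nonunits_subset hx₀) (hk x₀)
    simpa using this
  have hval := Places.valuation_ratFunc_eq_zpow A hk e hxA hx₀ hf0
  set g := A.valuation (e RatFunc.X - algebraMap k K x₀) with hg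
  have hg1 : g < 1 := (A.mem_nonunits_iff).mp hx₀
  have hg0 : 0 < g := by
    rw [zero_lt_iff, hg, Valuation.ne_zero_iff]
    exact sub_ne_zero.mpr hne
  have hcop := rootMultiplicity_num_or_denom f x₀
  refine ⟨fun hα => ?_, fun hα => ?_⟩
  · have hmem := (not_kerRed_iff A hQ0).mp (p1 hα)
    rw [← hf, ← A.valuation_le_one_iff, hval, zpow_le_one_iff_right_of_lt_one₀ hg0 hg1] at hmem
    omega
  · obtain ⟨-, q2, q1⟩ := p2 hα
    by_cases hy : y₀ = (W⁄k).negY x₀ y₀
    · rw [if_pos hy]
      have h5 := q1 hy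
      rw [← hf, hval] at h5
      have h6 : g ^ ((f.num.rootMultiplicity x₀ : ℤ) - (f.denom.rootMultiplicity x₀ : ℤ)) =
          g ^ (-1 : ℤ) := by rw [h5, zpow_neg, zpow_one]
      have h7 := (zpow_right_inj₀ hg0 hg1.ne).mp h6
      omega
    · rw [if_neg hy]
      have h5 := q2 hy
      rw [← hf, hval] at h5
      have h6 : g ^ ((f.num.rootMultiplicity x₀ : ℤ) - (f.denom.rootMultiplicity x₀ : ℤ)) =
          g ^ (-2 : ℤ) := by rw [h5, zpow_neg, inv_pow]; norm_cast
      have h7 := (zpow_right_inj₀ hg0 hg1.ne).mp h6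
      omega

end PoleOrder

end Fermat.Agent.Lib.EC.KernelCount
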