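import Mathlib
import Fermat.Agent.Lib.EC.KernelCount.Poles
import Fermat.Agent.Lib.EC.KernelCount.Frob

/-!
# P-ELL WP-EC9: counting the kernel of `m + ψ` by the height of the generic point
-/

set_option autoImplicit false

open WeierstrassCurve WeierstrassCurve.Affine Polynomial

namespace Fermat.Agent.Lib.EC.KernelCount

open Fermat.Agent.Lib.EC Fermat.Agent.Lib.EC.LocalOrder

section Count

variable {k : Type*} [Field k] [IsAlgClosed k]

/-- Over an algebraically closed field every `x₀` is the `x`-coordinate of a point of the curve. -/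
theorem exists_equation (W : Affine k) (x₀ : k) : ∃ y₀ : k, W.Equation x₀ y₀ := by
  let p : k[X] := X ^ 2 + C (W.a₁ * x₀ + W.a₃) * X - C (x₀ ^ 3 + W.a₂ * x₀ ^ 2 + W.a₄ * x₀ + W.a₆)
  have hdeg : p.degree = 2 := by
    have h1 : (C (W.a₁ * x₀ + W.a₃) * X - C (x₀ ^ 3 + W.a₂ * x₀ ^ 2 + W.a₄ * x₀ + W.a₆)).degree
        < ((X : k[X]) ^ 2).degree := by
      rw [degree_X_pow]
      refine lt_of_le_of_lt (degree_sub_le _ _) (max_lt ?_ ?_)
      · exact lt_of_le_of_lt (degree_C_mul_X_le _) (by norm_num)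
      · exact lt_of_le_of_lt degree_C_le (by norm_num)
    have : p = X ^ 2 + (C (W.a₁ * x₀ + W.a₃) * X -
        C (x₀ ^ 3 + W.a₂ * x₀ ^ 2 + W.a₄ * x₀ + W.a₆)) := by simp only [p]; ring
    rw [this, degree_add_eq_left_of_degree_lt h1, degree_X_pow]
    rfl
  obtain ⟨y₀, hy₀⟩ := IsAlgClosed.exists_root p (by rw [hdeg]; norm_num)
  refine ⟨y₀, ?_⟩
  rw [equation_iff]
  simp only [p, IsRoot.def, eval_sub, eval_add, eval_pow, eval_X, eval_mul, eval_C] at hy₀
  linear_combination hy₀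

end Count

section Main

variable {R : Type*} [CommRing R] {W : Affine R}
  {k K : Type*} [Field k] [Field K] [Algebra R k] [Algebra R K] [Algebra k K]
  [IsScalarTower R k K] [DecidableEq k] [DecidableEq K] [IsAlgClosed k] [(W⁄k).IsElliptic]
  {H : Places.IsOneVar k K} {ψK : (W⁄K).Point →+ (W⁄K).Point}
  {ψk : (W⁄k).Point →+ (W⁄k).Point} (hψ : IsInsep W H ψK ψk)
  {m : ℤ} (hm : (m : k) ≠ 0) (e : RatFunc k →ₐ[k] K) {y : K}
  (hxy : (W⁄K).Nonsingular (e RatFunc.X) y)
  (hcentre : ∀ x₀ y₀ : k, (W⁄k).Nonsingular x₀ y₀ → ∃ A : ValuationSubring K,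
      (∀ c : k, algebraMap k K c ∈ A) ∧ e RatFunc.X - algebraMap k K x₀ ∈ A.nonunits ∧
        y - algebraMap k K y₀ ∈ A.nonunits)

include hψ hm hcentre in
/-- **WP-EC9, abstract form.**  `K/k` a function field in one variable, `(x, y)` a `K`-point of the
constant elliptic curve `W` with `x = e X` for an embedding `e : k(X) → K`, such that every
`k`-point of `W` is the centre of `(x, y)` at some place.  For `α = m + ψ` with `(m : k) ≠ 0` and
`ψ` inseparable, if the `x`-coordinate of `α (x, y)` is `f(x)` for a rational function `f`, then the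
kernel of `α` on `W(k)` is finite of cardinality `max (deg num f) (deg denom f)`. -/
theorem card_ker_eq_max_natDegree {f : RatFunc k}
    (hf : e f =
      xCoord _ (m • Point.some (e RatFunc.X) y hxy + ψK (Point.some (e RatFunc.X) y hxy))) :
    Nat.card {P₀ : (W⁄k).Point // m • P₀ + ψk P₀ = 0} =
      max f.num.natDegree f.denom.natDegree := by
  classical
  obtain ⟨-, hdeg⟩ := generic_ne_zero_and_intDegree hψ hm e hxy
  obtain ⟨-, hdeg1⟩ := hdeg f hf
  have hnd : f.num.natDegree = f.denom.natDegree + 1 := by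
    rw [RatFunc.intDegree] at hdeg1; omega
  rw [hnd, max_eq_left (Nat.le_succ _)]
  have key : ∀ (x₀ y₀ : k) (h₀ : (W⁄k).Nonsingular x₀ y₀),
      (m • Point.some x₀ y₀ h₀ + ψk (Point.some x₀ y₀ h₀) ≠ 0 →
        f.denom.rootMultiplicity x₀ = 0) ∧
      (m • Point.some x₀ y₀ h₀ + ψk (Point.some x₀ y₀ h₀) = 0 →
        f.denom.rootMultiplicity x₀ = if y₀ = (W⁄k).negY x₀ y₀ then 1 else 2) := by
    intro x₀ y₀ h₀
    obtain ⟨A, hk, hx₀, hy₀⟩ := hcentre x₀ y₀ h₀
    exact rootMultiplicity_denom hψ hm e hxy hf A hk h₀ hx₀ hy₀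
  have hden : f.denom ≠ 0 := RatFunc.denom_ne_zero f
  have hker_iff : ∀ (x₀ y₀ : k) (h₀ : (W⁄k).Nonsingular x₀ y₀),
      m • Point.some x₀ y₀ h₀ + ψk (Point.some x₀ y₀ h₀) = 0 ↔
        x₀ ∈ f.denom.roots.toFinset := by
    intro x₀ y₀ h₀
    rw [mem_roots_toFinset_iff hden]
    constructor
    · intro h
      rw [(key x₀ y₀ h₀).2 h]
      split_ifs <;> norm_num
    · intro h
      by_contra hne
      exact h ((key x₀ y₀ h₀).1 hne)
  have hns : ∀ x₀ y₀, (W⁄k).Equation x₀ y₀ → (W⁄k).Nonsingular x₀ y₀ :=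
    fun x₀ y₀ h => (equation_iff_nonsingular).mp h
  choose ysel hysel using exists_equation (W⁄k)
  let Fibre : k → Finset k := fun x₀ => {ysel x₀, (W⁄k).negY x₀ (ysel x₀)}
  let S : Finset (Σ _ : k, k) := f.denom.roots.toFinset.sigma Fibre
  let g : (Σ _ : k, k) → (W⁄k).Point := fun p =>
    if h : (W⁄k).Nonsingular p.1 p.2 then Point.some p.1 p.2 h else 0
  -- elements of `S` are points of the kernel
  have hS : ∀ p ∈ S, ∃ h : (W⁄k).Nonsingular p.1 p.2,
      g p = Point.some p.1 p.2 h ∧ m • Point.some p.1 p.2 h + ψk (Point.some p.1 p.2 h) = 0 := by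
    rintro ⟨x₀, y₀⟩ hp
    rw [Finset.mem_sigma] at hp
    obtain ⟨hx₀, hy₀⟩ := hp
    have hE : (W⁄k).Equation x₀ y₀ := by
      simp only [Fibre, Finset.mem_insert, Finset.mem_singleton] at hy₀
      rcases hy₀ with rfl | rfl
      · exact hysel x₀
      · exact (equation_neg x₀ _).mpr (hysel x₀)
    have hN := hns x₀ y₀ hE
    exact ⟨hN, dif_pos hN, (hker_iff x₀ y₀ hN).mpr hx₀⟩
  -- the kernel as a finset
  have hset : {P₀ : (W⁄k).Point | m • P₀ + ψk P₀ = 0} = ↑(insert 0 (S.image g)) := by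
    ext P₀
    simp only [Set.mem_ofPred_eq, Finset.coe_insert, Finset.coe_image, Set.mem_insert_iff,
      Set.mem_image, Finset.mem_coe]
    constructor
    · intro hP
      rcases P₀ with _ | ⟨x₀, y₀, h₀⟩
      · exact Or.inl rfl
      · right
        refine ⟨⟨x₀, y₀⟩, ?_, dif_pos h₀⟩
        rw [Finset.mem_sigma]
        refine ⟨(hker_iff x₀ y₀ h₀).mp hP, ?_⟩
        simp only [Fibre, Finset.mem_insert, Finset.mem_singleton]
        exact Y_eq_of_X_eq h₀.1 (hysel x₀) rfl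
    · rintro (rfl | ⟨p, hp, rfl⟩)
      · simp
      · obtain ⟨h, e1, e2⟩ := hS p hp
        rw [e1]; exact e2
  have hcard : Nat.card {P₀ : (W⁄k).Point // m • P₀ + ψk P₀ = 0} =
      (insert 0 (S.image g)).card := by
    change Nat.card ↥{P₀ : (W⁄k).Point | m • P₀ + ψk P₀ = 0} = _
    rw [Nat.card_coe_set_eq, hset, Set.ncard_coe_finset]
  rw [hcard]
  -- `0` is not in the image, `g` is injective on `S`
  have h0 : (0 : (W⁄k).Point) ∉ S.image g := by
    rw [Finset.mem_image]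
    rintro ⟨p, hp, h⟩
    obtain ⟨hN, e1, -⟩ := hS p hp
    rw [e1] at h
    exact Point.some_ne_zero hN h
  have hinj : Set.InjOn g ↑S := by
    rintro ⟨x₁, y₁⟩ hp₁ ⟨x₂, y₂⟩ hp₂ h
    obtain ⟨hN₁, e1, -⟩ := hS _ hp₁
    obtain ⟨hN₂, e2, -⟩ := hS _ hp₂
    rw [e1, e2] at h
    have := Point.some.inj h
    simp only at this
    rw [this.1, this.2]
  rw [Finset.card_insert_of_notMem h0, Finset.card_image_of_injOn hinj, Finset.card_sigma]
  -- the fibres have the right size
  rw [natDegree_eq_sum_rootMultiplicity f.denom, Nat.succ_eq_add_one]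
  congr 1
  refine Finset.sum_congr rfl fun x₀ hx₀ => ?_
  have hN := hns x₀ _ (hysel x₀)
  rw [(key x₀ _ hN).2 ((hker_iff x₀ _ hN).mpr hx₀)]
  by_cases hy : ysel x₀ = (W⁄k).negY x₀ (ysel x₀)
  · rw [if_pos hy]
    simp only [Fibre]
    rw [← hy, Finset.pair_eq_singleton, Finset.card_singleton]
  · rw [if_neg hy]
    exact Finset.card_pair hy

include hψ hm in
/-- `α (x, y) ≠ 0` for `α = m + ψ`. -/
theorem generic_ne_zero :
    m • Point.some (e RatFunc.X) y hxy + ψK (Point.some (e RatFunc.X) y hxy) ≠ 0 :=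
  (generic_ne_zero_and_intDegree hψ hm e hxy).1

end Main

section Corollaries

variable {R : Type*} [CommRing R] {W : Affine R}
  {k K : Type*} [Field k] [Field K] [Algebra R k] [Algebra R K] [Algebra k K]
  [IsScalarTower R k K] [DecidableEq k] [DecidableEq K] [IsAlgClosed k] [(W⁄k).IsElliptic]
  (H : Places.IsOneVar k K)
  {m : ℤ} (hm : (m : k) ≠ 0) (e : RatFunc k →ₐ[k] K) {y : K}
  (hxy : (W⁄K).Nonsingular (e RatFunc.X) y)
  (hcentre : ∀ x₀ y₀ : k, (W⁄k).Nonsingular x₀ y₀ → ∃ A : ValuationSubring K,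
      (∀ c : k, algebraMap k K c ∈ A) ∧ e RatFunc.X - algebraMap k K x₀ ∈ A.nonunits ∧
        y - algebraMap k K y₀ ∈ A.nonunits)

include H hm hcentre in
/-- **Multiplication by `m`** (any characteristic, `(m : k) ≠ 0`). -/
theorem card_ker_zsmul {f : RatFunc k}
    (hf : e f = xCoord _ (m • Point.some (e RatFunc.X) y hxy)) :
    Nat.card {P₀ : (W⁄k).Point // m • P₀ = 0} = max f.num.natDegree f.denom.natDegree := by
  have h := card_ker_eq_max_natDegree (isInsep_zero W H) hm e hxy hcentre (f := f)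
    (by simpa using hf)
  simpa using h

include H hm hcentre in
/-- **`m + s • Frobenius`** for a `q`-power Frobenius `fK` of `K` and `fk` of `k`, `2 ≤ q`. -/
theorem card_ker_zsmul_add_zsmul_frob (fK : K →ₐ[R] K) (fk : k →ₐ[R] k) {q : ℕ}
    (hq : 2 ≤ q) (hfK : ∀ z, fK z = z ^ q) (hfk : ∀ c, fk c = c ^ q) (s : ℤ) {f : RatFunc k}
    (hf : e f = xCoord _ (m • Point.some (e RatFunc.X) y hxy +
      s • Point.map (W' := W) fK (Point.some (e RatFunc.X) y hxy))) :
    Nat.card {P₀ : (W⁄k).Point // m • P₀ + s • Point.map (W' := W) fk P₀ = 0} =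
      max f.num.natDegree f.denom.natDegree :=
  card_ker_eq_max_natDegree (isInsep_zsmul_frob W H fK fk hq hfK hfk s) hm e hxy hcentre hf

end Corollaries

end Fermat.Agent.Lib.EC.KernelCount
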