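import Mathlib
import Fermat.Agent.Lib.EC.KernelCount
import Fermat.Agent.Lib.EC.Parallelogram

/-!
# P-ELL WP-EC9, `hT` form: `#ker (m + s φ^r) = hT (m • Pgen + s • φ^r Pgen)` and `#E[m](k) = m²`

`hT` is helper28's height on `Parallelogram.oddPoints W (involA W k)` (instantiated with helper97's
`ratEmb`, `involA`, `hfix`).  The membership proof `hmem` is an arbitrary argument (proof
irrelevant), so the statements apply to any packaging of the odd points.
-/

set_option autoImplicit false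

open WeierstrassCurve Polynomial

namespace Fermat.Agent.Lib.EC.KernelCount

open Fermat.Agent.Lib.EC Fermat.Agent.Lib.EC.FunctionField

variable {F : Type*} [Field F] (W : WeierstrassCurve F) (k : Type*) [Field k] [Algebra F k]
  [DecidableEq (FF W k)]

/-- helper28's `xT` (on the subtype of odd points) agrees with helper97's total `xT`. -/
theorem xT_bridge (hW : ¬((2 : k) = 0 ∧ (W⁄k).a₁ = 0 ∧ (W⁄k).a₃ = 0))
    (Q : Parallelogram.oddPoints W (involA W k)) :
    Parallelogram.xT (ratEmb W k) (hfix W k hW) Q = FunctionField.xT W k Q.1 := by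
  obtain ⟨Q, hQ⟩ := Q
  have hQ' : Q ∈ oddPoints W k := (mem_oddPoints_iff W k Q).mpr hQ
  rcases Q with _ | ⟨x, y, h⟩
  · have h0 : (⟨Affine.Point.zero, hQ⟩ : Parallelogram.oddPoints W (involA W k)) = 0 := rfl
    rw [h0, Parallelogram.xT_zero]
    exact (xT_zero W k).symm
  · exact Parallelogram.xT_eq_of_some (ratEmb W k) (hfix W k hW) rfl (ratEmb_xT W k hW hQ')

/-- The height of an odd point is `ratHeight` of helper97's `xT`. -/
theorem hT_eq_ratHeight_xT (hW : ¬((2 : k) = 0 ∧ (W⁄k).a₁ = 0 ∧ (W⁄k).a₃ = 0))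
    (Q : Parallelogram.oddPoints W (involA W k)) :
    Parallelogram.hT (ratEmb W k) (hfix W k hW) Q = (ratHeight (FunctionField.xT W k Q.1) : ℕ) := by
  rw [Parallelogram.hT_eq_ratHeight, xT_bridge W k hW]

section Final

variable [IsAlgClosed k] [DecidableEq k] [(W⁄k).IsElliptic]

/-- **WP-EC9, `hT` form, multiplication by `m`.** -/
theorem card_ker_zsmul_eq_hT (hW : ¬((2 : k) = 0 ∧ (W⁄k).a₁ = 0 ∧ (W⁄k).a₃ = 0))
    {m : ℤ} (hm : (m : k) ≠ 0)
    (hmem : m • genericPoint W k ∈ Parallelogram.oddPoints W (involA W k)) :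
    (Nat.card {P₀ : (W⁄k).toAffine.Point // m • P₀ = 0} : ℤ) =
      Parallelogram.hT (ratEmb W k) (hfix W k hW) ⟨m • genericPoint W k, hmem⟩ := by
  rw [hT_eq_ratHeight_xT W k hW, card_ker_zsmul_eq_ratHeight W k hm]

/-- **`#E[m](k) = m²`** for `(m : k) ≠ 0`, in any characteristic. -/
theorem card_torsion {m : ℤ} (hm : (m : k) ≠ 0) :
    (Nat.card {P₀ : (W⁄k).toAffine.Point // m • P₀ = 0} : ℤ) = m ^ 2 := by
  have hW := not_two_a₁_a₃_of_Δ_ne_zero W k (W⁄k).isUnit_Δ.ne_zero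
  let Pg : Parallelogram.oddPoints W (involA W k) := ⟨genericPoint W k, genericPoint_mem W k⟩
  have hmem : m • genericPoint W k ∈ Parallelogram.oddPoints W (involA W k) :=
    (Parallelogram.oddPoints W (involA W k)).zsmul_mem (genericPoint_mem W k) m
  rw [card_ker_zsmul_eq_hT W k hW hm hmem]
  have h1 : (⟨m • genericPoint W k, hmem⟩ : Parallelogram.oddPoints W (involA W k)) = m • Pg :=
    rfl
  rw [h1, Parallelogram.hT_zsmul,
    Parallelogram.hT_eq_one_of_x_eq_X (ratEmb W k) (hfix W k hW) (Q := Pg) rfl (ratEmb_X W k),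
    mul_one]

/-- `E[m](k)` is finite for `(m : k) ≠ 0`. -/
theorem finite_torsion {m : ℤ} (hm : (m : k) ≠ 0) :
    Finite {P₀ : (W⁄k).toAffine.Point // m • P₀ = 0} := by
  apply Nat.finite_of_card_ne_zero
  have h := card_torsion W k hm
  intro h0
  rw [h0] at h
  have hm0 : m ≠ 0 := by rintro rfl; simp at hm
  exact pow_ne_zero 2 hm0 (by exact_mod_cast h.symm)

variable [Fintype F]

/-- **WP-EC9, `hT` form, `m + s φ`.** -/
theorem card_ker_eq_hT (hW : ¬((2 : k) = 0 ∧ (W⁄k).a₁ = 0 ∧ (W⁄k).a₃ = 0))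
    {m : ℤ} (hm : (m : k) ≠ 0) (s : ℤ)
    (hmem : m • genericPoint W k + s • frobPt W k (genericPoint W k) ∈
      Parallelogram.oddPoints W (involA W k)) :
    (Nat.card {P₀ : (W⁄k).toAffine.Point // m • P₀ + s • frobPtk W k P₀ = 0} : ℤ) =
      Parallelogram.hT (ratEmb W k) (hfix W k hW)
        ⟨m • genericPoint W k + s • frobPt W k (genericPoint W k), hmem⟩ := by
  rw [hT_eq_ratHeight_xT W k hW, card_ker_eq_ratHeight W k hm s]

/-- **WP-EC9, `hT` form, `m + s φ^r`, `r ≥ 1`.** -/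
theorem card_ker_iterate_eq_hT (hW : ¬((2 : k) = 0 ∧ (W⁄k).a₁ = 0 ∧ (W⁄k).a₃ = 0))
    {m : ℤ} (hm : (m : k) ≠ 0) (s : ℤ) {r : ℕ} (hr : r ≠ 0)
    (hmem : m • genericPoint W k + s • (frobPt W k)^[r] (genericPoint W k) ∈
      Parallelogram.oddPoints W (involA W k)) :
    (Nat.card {P₀ : (W⁄k).toAffine.Point // m • P₀ + s • (frobPtk W k)^[r] P₀ = 0} : ℤ) =
      Parallelogram.hT (ratEmb W k) (hfix W k hW)
        ⟨m • genericPoint W k + s • (frobPt W k)^[r] (genericPoint W k), hmem⟩ := by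
  rw [hT_eq_ratHeight_xT W k hW, card_ker_iterate_eq_ratHeight W k hm s hr]

end Final

end Fermat.Agent.Lib.EC.KernelCount
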